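import Fermat.Agent.S56.EC.Gal.Num

/-!
# S56 / EC : the global Euler characteristic formula (Tate) for modules over `Gal(L/ℚ) ⊆ GL₂(𝔽)`.   Assembly + interface.
-/

set_option autoImplicit false
set_option linter.style.haveILetI false

open ExtCitation Module

namespace Fermat.Agent.S56.EC

open Fermat.Agent.CFT Fermat.Agent.CFT.Global Fermat.Agent.S14

variable {p : ℕ} [Fact p.Prime] {S : Finset Nat.Primes}

/-- **Tate's global Euler characteristic formula**, `Γ`-form. -/
theorem ecFun_eq_zero (L : IntermediateField ℚ Qb) [FiniteDimensional ℚ L] [Normal ℚ L]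
    (hp2 : p ≠ 2) (hpS : pPrime p ∈ S) (hL : L.IsUnramifiedOutside S)
    (hmu : ∀ s ∈ L.fixingSubgroup, cycloChar p s = 1) (hgen : GenCl (SPl S L))
    {𝔽 : Type} [Field 𝔽] [Finite 𝔽] [CharP 𝔽 p] (r : (↥L ≃ₐ[ℚ] ↥L) →* GL (Fin 2) 𝔽)
    (hr : Function.Injective r) (V : Type) [AddCommGroup V] [Module (ZMod p) V]
    [Module.Finite (ZMod p) V] (σ : Representation (ZMod p) (↥L ≃ₐ[ℚ] ↥L) V) :
    (ecFun L hp2 hpS hL).ev σ = 0 :=
  cartan_gl2 (k := ZMod p) (p := p) r hr (ecFun L hp2 hpS hL)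
    (fun V _ _ _ σ hσ => AddFun.eq_zero_of_nonneg (ecFun L hp2 hpS hL)
      (fun V _ _ _ σ hσ => ecFun_nonneg L hp2 hpS hL hmu hgen V σ hσ)
      (ecFun_reg L hp2 hpS hL hmu hgen) σ hσ) V σ

/-- **Tate's global Euler characteristic formula**, `GQ`-form: the hypothesis `hEC` of `CFT.gw_le`. -/
theorem euler_char (L : IntermediateField ℚ Qb) [FiniteDimensional ℚ L] [Normal ℚ L]
    (hp2 : p ≠ 2) (hpS : pPrime p ∈ S) (hL : L.IsUnramifiedOutside S)
    (hmu : ∀ s ∈ L.fixingSubgroup, cycloChar p s = 1) (hgen : GenCl (SPl S L))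
    {𝔽 : Type} [Field 𝔽] [Finite 𝔽] [CharP 𝔽 p] (r : (↥L ≃ₐ[ℚ] ↥L) →* GL (Fin 2) 𝔽)
    (hr : Function.Injective r) {V : Type} [AddCommGroup V] [Module (ZMod p) V]
    [Module.Finite (ZMod p) V] (ρ : Representation (ZMod p) GQ V)
    (hρ : ∀ g ∈ L.fixingSubgroup, ρ g = 1) :
    finrank (ZMod p) ↥ρ.invariants + finrank (ZMod p) (H2 (levS S) ρ) + finrank (ZMod p) V =
      finrank (ZMod p) (H1 (levS S) ρ) +
        finrank (ZMod p) ↥(LinearMap.ker (ρ complexConjugation - 1)) := by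
  obtain ⟨σ, rfl⟩ := exists_eq_comp_piL L ρ hρ
  have h := ecFun_eq_zero L hp2 hpS hL hmu hgen r hr V σ
  rw [ecFun_ev] at h
  unfold Datum.eulerChar at h
  have h' : (finrank (ZMod p) ↥(resRep (piL L) σ).invariants : ℤ)
      - finrank (ZMod p) (H1 (levS S) (resRep (piL L) σ))
      + finrank (ZMod p) (H2 (levS S) (resRep (piL L) σ)) + (finrank (ZMod p) V : ℤ)
      - (finrank (ZMod p) ↥(LinearMap.ker (σ (piL L complexConjugation) - 1)) : ℤ) = 0 := h
  have h'' : (resRep (piL L) σ) complexConjugation = σ (piL L complexConjugation) := rfl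
  rw [h'']
  omega

/-! ### EC-M1, EC-M2 : the field cut out by `rbar`, the auxiliary set `S₁` -/

/-- EC-M1: the field cut out by a residual representation `rbar : GQ →* GL₂(𝔽)` which is trivial on an `S`-level.
(`L := IntermediateField.fixedField (ker rbar)`; `ker rbar ⊇ F.fixingSubgroup` so `L ≤ F`: finite, unramified outside `S`
(`IsUnramifiedOutside` passes to subfields: see how `CFT/K/Bridge.lean` / `S56/TW/Hyp.lean exists_level_of_unram` do it); `ker rbar` is open hence closed: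
`InfiniteGalois.fixingSubgroup_fixedField`; normal as `ker rbar` is normal.) -/
theorem exists_field_of_rbar {𝔽 : Type} [Field 𝔽] (rbar : GQ →* GL (Fin 2) 𝔽)
    (hlev : ∃ U ∈ (levS S).carrier, ∀ g ∈ U, rbar g = 1) :
    ∃ (L : IntermediateField ℚ Qb) (_ : FiniteDimensional ℚ L) (_ : Normal ℚ L),
      L.IsUnramifiedOutside S ∧ (∀ g, g ∈ L.fixingSubgroup ↔ rbar g = 1) ∧
      ∃ r : (↥L ≃ₐ[ℚ] ↥L) →* GL (Fin 2) 𝔽, Function.Injective r ∧ ∀ g, r (piL L g) = rbar g := by
  obtain ⟨U, ⟨F, hF, -, rfl⟩, hU⟩ := hlev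
  haveI := hF.1
  have hle : F.fixingSubgroup ≤ rbar.ker := fun g hg => MonoidHom.mem_ker.2 (hU g hg)
  have hopen : IsOpen (rbar.ker : Set GQ) :=
    Subgroup.isOpen_mono hle F.fixingSubgroup_isOpen
  have hclosed : IsClosed (rbar.ker : Set GQ) := Subgroup.isClosed_of_isOpen _ hopen
  set L : IntermediateField ℚ Qb := IntermediateField.fixedField rbar.ker with hLdef
  have hLF : L ≤ F := by
    rw [← InfiniteGalois.fixedField_fixingSubgroup F]
    exact IntermediateField.fixedField_antitone hle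
  have hLur : L.IsUnramifiedOutside S := hF.of_le hLF
  have hfix : L.fixingSubgroup = rbar.ker :=
    InfiniteGalois.fixingSubgroup_fixedField ⟨rbar.ker, hclosed⟩
  have hnorm : Normal ℚ L := by
    refine (IntermediateField.normal_iff_forall_map_le' (F := ℚ) (L := Qb) (K := L)).2 ?_
    rintro σ _ ⟨x, hx, rfl⟩
    rw [hLdef, IntermediateField.mem_fixedField_iff]
    intro h hh
    have h1 : σ⁻¹ * h * σ ∈ rbar.ker := by
      rw [MonoidHom.mem_ker] at hh ⊢
      rw [map_mul, map_mul, hh, mul_one, ← map_mul, inv_mul_cancel, map_one]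
    have h2 := (IntermediateField.mem_fixedField_iff _ _).1 hx _ h1
    have h3 : σ ((σ⁻¹ * h * σ) x) = h (σ x) := by
      simp only [AlgEquiv.mul_apply]
      exact σ.apply_symm_apply _
    rw [h2] at h3
    exact h3.symm
  haveI := hLur.1
  haveI := hnorm
  have hiff : ∀ g, g ∈ L.fixingSubgroup ↔ rbar g = 1 := fun g => by
    rw [hfix, MonoidHom.mem_ker]
  have hker : (piL L).ker ≤ rbar.ker := by
    intro g hg
    rw [MonoidHom.mem_ker, piL_eq_one_iff, hiff] at hg
    exact MonoidHom.mem_ker.2 hg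
  refine ⟨L, hLur.1, hnorm, hLur, hiff,
    (piL L).liftOfSurjective (piL_surjective L) ⟨rbar, hker⟩, ?_, ?_⟩
  · rw [injective_iff_map_eq_one]
    intro γ hγ
    obtain ⟨g, rfl⟩ := piL_surjective L γ
    rw [MonoidHom.liftOfRightInverse_comp_apply] at hγ
    rw [piL_eq_one_iff, hiff]
    exact hγ
  · intro g
    rw [MonoidHom.liftOfRightInverse_comp_apply]

/-- EC-M2: a finite set of primes `S₁` such that the places of `L` over any `S ⊇ S₁` generate the class group
(`S14.exists_genCl ∅ ∅`, the residue characteristics of the places, `GenCl.mono`). -/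
theorem exists_S1 (L : IntermediateField ℚ Qb) [FiniteDimensional ℚ L] :
    ∃ S₁ : Finset Nat.Primes, ∀ S : Finset Nat.Primes, S₁ ⊆ S → GenCl (SPl S L) := by
  classical
  obtain ⟨St, -, -, hgen, -⟩ := exists_genCl (F := ↥L) ∅ ∅ (by simp)
  choose q hq hqv using fun v : Pl ↥L => exists_above v
  refine ⟨St.image fun v => ⟨q v, hq v⟩, fun S hS => hgen.mono fun v hv => ?_⟩
  rw [mem_SPl]
  exact ⟨⟨q v, hq v⟩, hS (Finset.mem_image_of_mem _ hv), hqv v⟩

end Fermat.Agent.S56.EC
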